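/-
KL-A, block PLACES (task KLA-PLACES1, owner helper94).
`chart ⊤ x`, the integral closure of `K[x]` in a function field `F / K` of characteristic zero,
is a Dedekind domain with fraction field `F`; its primes are the places of `F / K` at which `x`
is regular; membership in the chart is "no pole at those places".
-/
import Mathlib
import Fermat.Prelude.Def_AlgebraicCurve_DivisorClassGroup
import Fermat.Agent.S18.Defs
import Fermat.Agent.S18.Chart.Const
import Fermat.Agent.S24.FFBasic
import Fermat.Agent.S24.FFDict
import Fermat.Agent.S24.FFSum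

set_option autoImplicit false
set_option linter.style.haveILetI false

noncomputable section

namespace Fermat.Agent.S18

open Polynomial IntermediateField AlgebraicCurve IsDedekindDomain WithZero Fermat.Agent.S24.FF
open scoped IntermediateField.algebraAdjoinAdjoin

section PLACES

variable {K F : Type*} [Field K] [Field F] [Algebra K F]

/-! ### The polynomial ring and the chart, without any hypothesis -/

theorem aeval_mem_polyRing_top (x : F) (p : K[X]) : aeval x p ∈ polyRing (⊤ : Subring K) x := by
  rw [mem_polyRing_top_iff, Algebra.adjoin_singleton_eq_range_aeval]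
  exact ⟨p, rfl⟩

/-- `chart ⊤ x` is the integral closure of `K[x] = Algebra.adjoin K {x}`. -/
theorem mem_chart_top_iff_isIntegral (x z : F) :
    z ∈ chart (⊤ : Subring K) x ↔ IsIntegral (Algebra.adjoin K {x}) z := by
  rw [mem_chart_iff_isIntegral]
  constructor
  · intro h
    exact h.map_of_comp_eq
      ((polyRing (⊤ : Subring K) x).subtype.codRestrict (Algebra.adjoin K {x})
        (fun a => (mem_polyRing_top_iff x _).mp a.2)) (RingHom.id F) rfl
  · intro h
    exact h.map_of_comp_eq
      ((Algebra.adjoin K {x}).val.toRingHom.codRestrict (polyRing (⊤ : Subring K) x)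
        (fun a => (mem_polyRing_top_iff x _).mpr a.2)) (RingHom.id F) rfl

theorem aeval_mem_chart_top (x : F) (p : K[X]) : aeval x p ∈ chart (⊤ : Subring K) x :=
  polyRing_le_chart _ _ (aeval_mem_polyRing_top x p)

theorem coord_mem_chart_top (x : F) : x ∈ chart (⊤ : Subring K) x := by
  simpa using aeval_mem_chart_top (K := K) x X

theorem algebraMap_mem_chart_top (x : F) (c : K) :
    algebraMap K F c ∈ chart (⊤ : Subring K) x := by
  simpa using aeval_mem_chart_top (K := K) x (C c)

/-- `chart ⊤ x` is a `K`-algebra. -/
instance algebraChartTop (x : F) : Algebra K ↥(chart (⊤ : Subring K) x) :=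
  ((algebraMap K F).codRestrict (chart (⊤ : Subring K) x)
    (algebraMap_mem_chart_top x)).toAlgebra

@[simp]
theorem coe_algebraMap_chartTop (x : F) (c : K) :
    ((algebraMap K ↥(chart (⊤ : Subring K) x) c : ↥(chart (⊤ : Subring K) x)) : F) =
      algebraMap K F c := rfl

instance isScalarTower_chartTop (x : F) : IsScalarTower K ↥(chart (⊤ : Subring K) x) F :=
  IsScalarTower.of_algebraMap_eq fun _ => rfl

/-- `chart ⊤ x` is an algebra over `K[x]`. -/
abbrev algebraAdjoinChartTop (x : F) : Algebra (Algebra.adjoin K {x}) ↥(chart (⊤ : Subring K) x) :=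
  ((Algebra.adjoin K {x}).val.toRingHom.codRestrict (chart (⊤ : Subring K) x)
    (fun a => polyRing_le_chart _ _ ((mem_polyRing_top_iff x _).mpr a.2))).toAlgebra

attribute [local instance] algebraAdjoinChartTop

theorem isScalarTower_adjoin_chartTop (x : F) :
    IsScalarTower (Algebra.adjoin K {x}) ↥(chart (⊤ : Subring K) x) F :=
  IsScalarTower.of_algebraMap_eq fun _ => rfl

theorem isIntegralClosure_chartTop (x : F) :
    IsIntegralClosure ↥(chart (⊤ : Subring K) x) (Algebra.adjoin K {x}) F where
  algebraMap_injective := Subtype.val_injective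
  isIntegral_iff := by
    intro z
    rw [← mem_chart_top_iff_isIntegral]
    exact ⟨fun h => ⟨⟨z, h⟩, rfl⟩, by rintro ⟨y, rfl⟩; exact y.2⟩

/-! ### Dedekind property -/

variable [CharZero K]

theorem isDedekindDomain_chart_top {x : F} (hx : Transcendental K x) [FiniteDimensional K⟮x⟯ F] :
    IsDedekindDomain ↥(chart (⊤ : Subring K) x) := by
  haveI := isPrincipalIdealRing_adjoin x hx
  haveI : CharZero K⟮x⟯ := charZero_of_injective_algebraMap (algebraMap K K⟮x⟯).injective
  haveI := isScalarTower_adjoin_chartTop (K := K) x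
  haveI := isIntegralClosure_chartTop (K := K) x
  exact IsIntegralClosure.isDedekindDomain (Algebra.adjoin K {x}) K⟮x⟯ F _

omit [CharZero K] in
theorem isFractionRing_chart_top (x : F) [FiniteDimensional K⟮x⟯ F] :
    IsFractionRing ↥(chart (⊤ : Subring K) x) F := by
  haveI := isScalarTower_adjoin_chartTop (K := K) x
  haveI := isIntegralClosure_chartTop (K := K) x
  exact IsIntegralClosure.isFractionRing_of_finite_extension (Algebra.adjoin K {x}) K⟮x⟯ F _

/-! ### Places versus primes of the chart -/

omit [CharZero K] in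
/-- The valuation ring of a place at which `x` is regular contains the chart. -/
theorem mem_place_of_mem_chart_top {x : F} (v : Place K F) (hv : 0 ≤ v.ord x) {z : F}
    (hz : z ∈ chart (⊤ : Subring K) x) : z ∈ v.toValuationSubring :=
  mem_of_isIntegral v (Algebra.adjoin K {x}) (adjoin_le_of_ord_nonneg v hv)
    ((mem_chart_top_iff_isIntegral x z).mp hz)

omit [CharZero K] in
theorem ord_nonneg_of_mem_chart_top {x : F} (v : Place K F) (hv : 0 ≤ v.ord x) {z : F}
    (hz : z ∈ chart (⊤ : Subring K) x) : 0 ≤ v.ord z :=
  ord_nonneg_of_mem v (mem_place_of_mem_chart_top v hv hz)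

section Primes

omit [CharZero K]

variable {x : F} [IsDedekindDomain ↥(chart (⊤ : Subring K) x)]
  [IsFractionRing ↥(chart (⊤ : Subring K) x) F]

/-- The order at the place attached to a prime of the chart. -/
theorem ord_place_eq (w : HeightOneSpectrum ↥(chart (⊤ : Subring K) x)) (f : F) :
    (Place.ofHeightOneSpectrum (K := K) w).ord f = -(log (w.valuation F f)) :=
  ord_ofHeightOneSpectrum w f

theorem valuation_eq_exp_neg_ord (w : HeightOneSpectrum ↥(chart (⊤ : Subring K) x)) {f : F}
    (hf : f ≠ 0) :
    w.valuation F f = exp (-(Place.ofHeightOneSpectrum (K := K) w).ord f) := by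
  rw [ord_place_eq, neg_neg, exp_log ((Valuation.ne_zero_iff _).mpr hf)]

theorem valuation_le_one_iff_ord (w : HeightOneSpectrum ↥(chart (⊤ : Subring K) x)) (f : F) :
    w.valuation F f ≤ 1 ↔ 0 ≤ (Place.ofHeightOneSpectrum (K := K) w).ord f := by
  rw [← mem_iff_ord_nonneg, Place.ofHeightOneSpectrum_toValuationSubring,
    Valuation.mem_valuationSubring_iff]

theorem ord_self_nonneg_ofHeightOneSpectrum (w : HeightOneSpectrum ↥(chart (⊤ : Subring K) x)) :
    0 ≤ (Place.ofHeightOneSpectrum (K := K) (F := F) w).ord x :=
  ord_nonneg_of_mem _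
    (algebraMap_mem_ofHeightOneSpectrum (K := K) (F := F) w ⟨x, coord_mem_chart_top x⟩)

/-- Every place at which `x` is regular comes from a prime of the chart. -/
theorem exists_heightOneSpectrum_of_place (v : Place K F) (hv : 0 ≤ v.ord x) :
    ∃ w : HeightOneSpectrum ↥(chart (⊤ : Subring K) x),
      Place.ofHeightOneSpectrum (K := K) w = v :=
  ⟨primeOfPlace v (fun b => mem_place_of_mem_chart_top v hv b.2),
    ofHeightOneSpectrum_primeOfPlace v _⟩

/-- The primes of the chart are the places at which `x` is regular. -/
def chartPlaceEquiv :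
    {v : Place K F // 0 ≤ v.ord x} ≃ HeightOneSpectrum ↥(chart (⊤ : Subring K) x) where
  toFun v := primeOfPlace v.1 (fun b => mem_place_of_mem_chart_top v.1 v.2 b.2)
  invFun w := ⟨Place.ofHeightOneSpectrum w, ord_self_nonneg_ofHeightOneSpectrum w⟩
  left_inv v := Subtype.ext (ofHeightOneSpectrum_primeOfPlace v.1 _)
  right_inv _ := ofHeightOneSpectrum_injective (K := K) (F := F)
    (ofHeightOneSpectrum_primeOfPlace _ _)

@[simp]
theorem coe_chartPlaceEquiv_symm (w : HeightOneSpectrum ↥(chart (⊤ : Subring K) x)) :
    ((chartPlaceEquiv (K := K) (F := F) (x := x)).symm w : Place K F) =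
      Place.ofHeightOneSpectrum w := rfl

theorem ofHeightOneSpectrum_chartPlaceEquiv (v : {v : Place K F // 0 ≤ v.ord x}) :
    Place.ofHeightOneSpectrum (K := K) (chartPlaceEquiv v) = v.1 :=
  ofHeightOneSpectrum_primeOfPlace v.1 _

/-- An element of `F` without poles at the primes of the chart lies in the chart. -/
theorem mem_chart_top_of_valuation_le_one {z : F}
    (h : ∀ w : HeightOneSpectrum ↥(chart (⊤ : Subring K) x), w.valuation F z ≤ 1) :
    z ∈ chart (⊤ : Subring K) x := by
  obtain ⟨b, hb⟩ := HeightOneSpectrum.mem_integers_of_valuation_le_one F z h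
  rw [← hb]
  exact b.2

end Primes

theorem mem_chart_top_iff_places {x : F} (hx : Transcendental K x) [FiniteDimensional K⟮x⟯ F]
    (z : F) : z ∈ chart (⊤ : Subring K) x ↔ ∀ v : Place K F, 0 ≤ v.ord x → 0 ≤ v.ord z := by
  haveI := isDedekindDomain_chart_top hx
  haveI := isFractionRing_chart_top (K := K) x
  constructor
  · intro hz v hv
    exact ord_nonneg_of_mem_chart_top v hv hz
  · intro h
    refine mem_chart_top_of_valuation_le_one fun w => ?_
    rw [valuation_le_one_iff_ord (K := K)]
    exact h _ (ord_self_nonneg_ofHeightOneSpectrum w)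

end PLACES

end Fermat.Agent.S18
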