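/-
KL-A, block PLACES: places unramified outside the roots of `g` give `IsUnramOutside x g`
(algebraically closed constants).
-/
import Mathlib
import Fermat.Agent.S18.Defs
import Fermat.Agent.S24.FFBasic
import Fermat.Agent.S24.FFOne
import Fermat.Agent.S18.Places.Dedekind

set_option autoImplicit false

noncomputable section

namespace Fermat.Agent.S18

open Polynomial IntermediateField AlgebraicCurve Fermat.Agent.S24

section PLACES

variable {K F : Type*} [Field K] [Field F] [Algebra K F]

/-- if `x ≡ c` at `v` and `P c ≠ 0` then `P x` is a unit at `v`. -/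
theorem ord_aeval_eq_zero_of_eval_ne_zero (v : Place K F) {x : F} {c : K}
    (hc : 0 < v.ord (x - algebraMap K F c)) (P : K[X]) (hP : P.eval c ≠ 0) :
    aeval x P ≠ 0 ∧ v.ord (aeval x P) = 0 := by
  have hxmem : x ∈ v.toValuationSubring := by
    have h1 : x - algebraMap K F c ∈ v.toValuationSubring := FF.mem_of_ord_nonneg v hc.le
    have : x = (x - algebraMap K F c) + algebraMap K F c := by ring
    rw [this]
    exact add_mem h1 (v.algebraMap_mem' c)
  set Q := P /ₘ (X - C c) with hQ
  have hdec : P = C (P.eval c) + (X - C c) * Q := by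
    have := modByMonic_add_div P (X - C c)
    rw [modByMonic_X_sub_C_eq_C_eval] at this
    exact this.symm
  have hQmem : aeval x Q ∈ v.toValuationSubring := by
    rw [aeval_eq_sum_range]
    refine sum_mem fun i _ => ?_
    rw [Algebra.smul_def]
    exact mul_mem (v.algebraMap_mem' _) (pow_mem hxmem i)
  have hval : aeval x P = algebraMap K F (P.eval c) + (x - algebraMap K F c) * aeval x Q := by
    conv_lhs => rw [hdec]
    simp
  have h0 : algebraMap K F (P.eval c) ≠ 0 := by simpa using hP
  rcases eq_or_ne (aeval x Q) 0 with hq | hq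
  · rw [hval, hq, mul_zero, add_zero]
    exact ⟨h0, FF.ord_algebraMap v _⟩
  · have hne : x - algebraMap K F c ≠ 0 := FF.ne_zero_of_ord_ne_zero v hc.ne'
    have hlt : v.ord (algebraMap K F (P.eval c)) <
        v.ord ((x - algebraMap K F c) * aeval x Q) := by
      rw [FF.ord_algebraMap, v.ord_mul hne hq]
      have := FF.ord_nonneg_of_mem v hQmem
      omega
    have hord := FF.ord_add_eq_of_lt v h0 hlt
    rw [← hval, FF.ord_algebraMap] at hord
    refine ⟨?_, hord⟩
    intro hz
    rw [hval] at hz
    have h2 : (x - algebraMap K F c) * aeval x Q = - algebraMap K F (P.eval c) := by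
      linear_combination hz
    rw [h2, FF.ord_neg, FF.ord_algebraMap] at hlt
    exact lt_irrefl _ hlt

/-- the version with `mem_chart_top_iff_places` as a hypothesis. -/
theorem isUnramOutside_of_places_aux [IsAlgClosed K] {x : F} (hx : Transcendental K x)
    [FiniteDimensional K⟮x⟯ F]
    (hmem : ∀ z : F, z ∈ chart (⊤ : Subring K) x ↔ ∀ v : Place K F, 0 ≤ v.ord x → 0 ≤ v.ord z)
    (g : K[X])
    (hram : ∀ (v : Place K F) (c : K), g.eval c ≠ 0 → 0 < v.ord (x - algebraMap K F c) →
      v.ord (x - algebraMap K F c) = 1) :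
    IsUnramOutside x g := by
  intro f hf hfg z hz hz2
  rw [hmem] at hz hz2 ⊢
  intro v hv
  have : FF.IsFF1 K F := FF.IsFF1.of_exists x
  rcases eq_or_ne z 0 with rfl | hz0
  · simp [v.ord_zero]
  have hf0 : f ≠ 0 := hf.ne_zero
  have hfx : aeval x f ≠ 0 := fun h => hf0 ((transcendental_iff.1 hx) f h)
  -- the order of `f x` is `0` or `1`
  have hord : v.ord (aeval x f) = 0 ∨ v.ord (aeval x f) = 1 := by
    obtain ⟨c, hc | hc⟩ := FF.exists_const_of_ord_nonneg v hv
    · exact absurd (hc ▸ isAlgebraic_algebraMap c) hx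
    · by_cases hfc : f.eval c = 0
      · right
        obtain ⟨f1, rfl⟩ := dvd_iff_isRoot.2 hfc
        have hf1 : f1.eval c ≠ 0 := by
          intro h1
          obtain ⟨f2, rfl⟩ := dvd_iff_isRoot.2 h1
          have hu : IsUnit (X - C c) := hf (X - C c) ⟨f2, by ring⟩
          exact not_isUnit_X_sub_C c hu
        have hgc : g.eval c ≠ 0 := by
          obtain ⟨a, b, hab⟩ := hfg
          intro hg0
          have := congrArg (eval c) hab
          simp [hg0] at this
        obtain ⟨h1, h2⟩ := ord_aeval_eq_zero_of_eval_ne_zero v hc f1 hf1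
        have hne : x - algebraMap K F c ≠ 0 := FF.ne_zero_of_ord_ne_zero v hc.ne'
        have e : aeval x ((X - C c) * f1) = (x - algebraMap K F c) * aeval x f1 := by simp
        rw [e, v.ord_mul hne h1, h2, hram v c hgc hc]
        rfl
      · left
        exact (ord_aeval_eq_zero_of_eval_ne_zero v hc f hfc).2
  have h2 := hz2 v hv
  rw [div_eq_mul_inv, v.ord_mul (pow_ne_zero 2 hz0) (inv_ne_zero hfx), v.ord_inv,
    FF.ord_pow] at h2
  rw [div_eq_mul_inv, v.ord_mul hz0 (inv_ne_zero hfx), v.ord_inv]
  push_cast at h2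
  rcases hord with h | h <;> rw [h] at h2 ⊢ <;> omega

end PLACES

section PLACES

variable {K F : Type*} [Field K] [CharZero K] [Field F] [Algebra K F]

theorem isUnramOutside_of_places [IsAlgClosed K] {x : F} (hx : Transcendental K x)
    [FiniteDimensional K⟮x⟯ F] (g : K[X])
    (hram : ∀ (v : Place K F) (c : K), g.eval c ≠ 0 → 0 < v.ord (x - algebraMap K F c) →
      v.ord (x - algebraMap K F c) = 1) :
    IsUnramOutside x g :=
  isUnramOutside_of_places_aux hx (mem_chart_top_iff_places hx) g hram

end PLACES

end Fermat.Agent.S18
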