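/-
KL-A, task KLA-ROOT (helper153), abstract core (Mathlib only).
In a Dedekind domain `B` with fraction field `F`: if all the exponents of the fractional ideal
`(h)` are divisible by `m`, then `(h)⁻¹ = J ^ m`, and a partition of unity `1 = ∑ a k * a' k`
with `a k ∈ J`, `a' k ∈ J⁻¹` gives `a k ^ m * h ∈ B`, `a' k ^ m * h⁻¹ ∈ B`.
-/
import Mathlib

set_option autoImplicit false

noncomputable section

namespace Fermat.Agent.S18.RootAbs

open IsDedekindDomain FractionalIdeal nonZeroDivisors WithZero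

variable {B F : Type*} [CommRing B] [IsDedekindDomain B] [Field F] [Algebra B F]
  [IsFractionRing B F]

/-- two nonzero fractional ideals with the same exponents are equal. -/
theorem eq_of_count_eq {I J : FractionalIdeal B⁰ F} (hI : I ≠ 0) (hJ : J ≠ 0)
    (h : ∀ w : HeightOneSpectrum B, count F w I = count F w J) : I = J := by
  rw [← finprod_heightOneSpectrum_factorization' F hI,
    ← finprod_heightOneSpectrum_factorization' F hJ]
  exact finprod_congr fun w => by rw [h w]

/-- a nonzero fractional ideal all of whose exponents are divisible by `m` is an `m`-th power. -/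
theorem exists_pow_eq {m : ℕ} {I : FractionalIdeal B⁰ F} (hI : I ≠ 0)
    (hdiv : ∀ w : HeightOneSpectrum B, (m : ℤ) ∣ count F w I) :
    ∃ J : FractionalIdeal B⁰ F, J ≠ 0 ∧ J ^ m = I := by
  classical
  have hfin : (Function.support fun w : HeightOneSpectrum B => count F w I / (m : ℤ)).Finite := by
    refine (finite_factors (K := F) I).subset ?_
    intro w hw h0
    apply hw
    show count F w I / (m : ℤ) = 0
    rw [h0, Int.zero_ediv]
  let exps : HeightOneSpectrum B →₀ ℤ := Finsupp.ofSupportFinite _ hfin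
  have hexps : ∀ w, exps w = count F w I / (m : ℤ) := fun w => rfl
  let J : FractionalIdeal B⁰ F :=
    exps.prod (fun w n => (w.asIdeal : FractionalIdeal B⁰ F) ^ n)
  have hJ : J ≠ 0 := by
    refine Finset.prod_ne_zero_iff.mpr fun w _ => ?_
    exact zpow_ne_zero _ (coeIdeal_ne_zero.mpr w.ne_bot)
  refine ⟨J, hJ, eq_of_count_eq (pow_ne_zero _ hJ) hI fun w => ?_⟩
  rw [count_pow, count_finsuppProd, hexps]
  exact Int.mul_ediv_cancel' (hdiv w)

/-- elements of a product of submodules as finite sums indexed by `Fin n`. -/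
theorem exists_fin_sum_of_mem_mul {R A : Type*} [CommSemiring R] [Semiring A] [Algebra R A]
    {M N : Submodule R A} {z : A} (hz : z ∈ M * N) :
    ∃ (n : ℕ) (a a' : Fin n → A), (∀ k, a k ∈ M) ∧ (∀ k, a' k ∈ N) ∧ ∑ k, a k * a' k = z := by
  induction hz using Submodule.mul_induction_on' with
  | mem_mul_mem x hx y hy =>
    exact ⟨1, fun _ => x, fun _ => y, fun _ => hx, fun _ => hy, by simp⟩
  | add x _ y _ hx hy =>
    obtain ⟨n₁, a₁, a₁', h₁, h₁', e₁⟩ := hx
    obtain ⟨n₂, a₂, a₂', h₂, h₂', e₂⟩ := hy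
    refine ⟨n₁ + n₂, Fin.append a₁ a₂, Fin.append a₁' a₂', ?_, ?_, ?_⟩
    · intro k
      refine Fin.addCases (fun i => ?_) (fun i => ?_) k
      · rw [Fin.append_left]; exact h₁ i
      · rw [Fin.append_right]; exact h₂ i
    · intro k
      refine Fin.addCases (fun i => ?_) (fun i => ?_) k
      · rw [Fin.append_left]; exact h₁' i
      · rw [Fin.append_right]; exact h₂' i
    · rw [Fin.sum_univ_add]
      simp only [Fin.append_left, Fin.append_right, e₁, e₂]

/-- **Abstract core of KLA-ROOT.** -/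
theorem exists_partition {m : ℕ} {h : F} (hh : h ≠ 0)
    (hdiv : ∀ w : HeightOneSpectrum B, (m : ℤ) ∣ count F w (spanSingleton B⁰ h)) :
    ∃ (n : ℕ) (a a' : Fin n → F), (∀ k, a k ^ m * h ∈ (algebraMap B F).range) ∧
      (∀ k, a' k ^ m * h⁻¹ ∈ (algebraMap B F).range) ∧ ∑ k, a k * a' k = 1 := by
  have hI : (spanSingleton B⁰ h : FractionalIdeal B⁰ F) ≠ 0 := spanSingleton_ne_zero_iff.mpr hh
  obtain ⟨J, hJ, hJm⟩ := exists_pow_eq hI hdiv
  -- `J ^ m = (h)`; use `J⁻¹` for `a` and `J` for `a'`.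
  have h1 : (1 : F) ∈ ((J⁻¹ * J : FractionalIdeal B⁰ F) : Submodule B F) := by
    rw [inv_mul_cancel₀ hJ]
    exact one_mem_one _
  rw [FractionalIdeal.coe_mul] at h1
  obtain ⟨n, a, a', ha, ha', hsum⟩ := exists_fin_sum_of_mem_mul h1
  have key : ∀ (L : FractionalIdeal B⁰ F) (c : F), L ^ m * spanSingleton B⁰ c = 1 →
      ∀ y : F, y ∈ L → y ^ m * c ∈ (algebraMap B F).range := by
    intro L c hL y hy
    have h3 : y ^ m ∈ L ^ m := by
      rw [← FractionalIdeal.mem_coe, FractionalIdeal.coe_pow]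
      exact Submodule.pow_mem_pow _ hy m
    have h2 : y ^ m * c ∈ L ^ m * spanSingleton B⁰ c :=
      mul_mem_mul h3 (mem_spanSingleton_self _ _)
    rw [hL, mem_one_iff] at h2
    obtain ⟨b, hb⟩ := h2
    exact ⟨b, hb⟩
  refine ⟨n, a, a', fun k => key J⁻¹ h ?_ _ (ha k), fun k => key J h⁻¹ ?_ _ (ha' k), hsum⟩
  · rw [inv_pow, hJm, inv_mul_cancel₀ hI]
  · rw [hJm, spanSingleton_mul_spanSingleton, mul_inv_cancel₀ hh, spanSingleton_one]

/-- the exponent of the principal fractional ideal `(h)` at `w` in terms of the adic valuation. -/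
theorem count_spanSingleton_eq (w : HeightOneSpectrum B) {h : F} (hh : h ≠ 0) :
    count F w (spanSingleton B⁰ h) = -(log (w.valuation F h)) := by
  classical
  obtain ⟨r, s, hs, rfl⟩ := IsFractionRing.div_surjective (A := B) h
  have hs0 : s ≠ 0 := nonZeroDivisors.ne_zero hs
  have hr0 : r ≠ 0 := by
    rintro rfl
    simp at hh
  have hI : (spanSingleton B⁰ (algebraMap B F r / algebraMap B F s) : FractionalIdeal B⁰ F) ≠ 0 :=
    spanSingleton_ne_zero_iff.mpr hh
  have e : (spanSingleton B⁰ (algebraMap B F r / algebraMap B F s) : FractionalIdeal B⁰ F) =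
      spanSingleton B⁰ (algebraMap B F s)⁻¹ *
        ((Ideal.span {r} : Ideal B) : FractionalIdeal B⁰ F) := by
    rw [coeIdeal_span_singleton, spanSingleton_mul_spanSingleton, div_eq_inv_mul]
  rw [count_well_defined F w hI e, map_div₀, w.valuation_of_algebraMap, w.valuation_of_algebraMap,
    w.intValuation_if_neg hr0, w.intValuation_if_neg hs0, ← exp_sub, log_exp]
  ring

/-- valuation form of `exists_partition`. -/
theorem exists_partition_of_valuation {m : ℕ} {h : F} (hh : h ≠ 0)
    (hdiv : ∀ w : HeightOneSpectrum B, (m : ℤ) ∣ log (w.valuation F h)) :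
    ∃ (n : ℕ) (a a' : Fin n → F), (∀ k, a k ^ m * h ∈ (algebraMap B F).range) ∧
      (∀ k, a' k ^ m * h⁻¹ ∈ (algebraMap B F).range) ∧ ∑ k, a k * a' k = 1 :=
  exists_partition hh fun w => by
    rw [count_spanSingleton_eq w hh]
    exact (dvd_neg).mpr (hdiv w)

end Fermat.Agent.S18.RootAbs
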