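/-
KL-A, task KLA-ROOT (helper153): a function whose divisor is divisible by `m` on the chart
`x ≠ ∞` has `RootData` on that chart.
-/
import Mathlib
import Fermat.Agent.S18.Defs
import Fermat.Agent.S18.Places.RootAbs
import Fermat.Agent.S18.Places.Dedekind
import Fermat.Agent.S24.FFDict

set_option autoImplicit false

noncomputable section

namespace Fermat.Agent.S18

open Polynomial IntermediateField AlgebraicCurve IsDedekindDomain

section PLACES

variable {K F : Type*} [Field K] [Field F] [Algebra K F]

/-- `RootData` on a Dedekind model `B ⊆ F` from divisibility of the orders at the places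
attached to the primes of `B`. -/
theorem rootData_of_dedekind (B : Subring F) [IsDedekindDomain B] [IsFractionRing B F]
    [Algebra K B] [IsScalarTower K B F] {m : ℕ} {h : F} (hh : h ≠ 0)
    (hdiv : ∀ w : HeightOneSpectrum B, (m : ℤ) ∣ (Place.ofHeightOneSpectrum (K := K) w).ord h) :
    RootData B 1 m h := by
  obtain ⟨n, a, a', ha, ha', hsum⟩ := RootAbs.exists_partition_of_valuation (B := B) (m := m) hh
    (fun w => by
      have := hdiv w
      rw [S24.FF.ord_ofHeightOneSpectrum] at this
      exact (dvd_neg).mp this)
  refine ⟨n, 0, a, a', fun k => ?_, fun k => ?_, by rw [hsum, pow_zero]⟩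
  · obtain ⟨b, hb⟩ := ha k
    rw [← hb]; exact b.2
  · obtain ⟨b, hb⟩ := ha' k
    rw [← hb]; exact b.2

/-- `rootData_of_places` with the Dedekind structure of the chart as instance arguments. -/
theorem rootData_of_places_aux {x : F} [IsDedekindDomain (chart (⊤ : Subring K) x)]
    [IsFractionRing (chart (⊤ : Subring K) x) F]
    {m : ℕ} {h : F} (hh : h ≠ 0)
    (hdiv : ∀ v : Place K F, 0 ≤ v.ord x → (m : ℤ) ∣ v.ord h) :
    RootData (chart (⊤ : Subring K) x) 1 m h :=
  rootData_of_dedekind (K := K) _ hh fun w => hdiv _ <|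
    S24.FF.ord_nonneg_of_mem _ <|
      S24.FF.algebraMap_mem_ofHeightOneSpectrum w
        (⟨x, coord_mem_chart_top x⟩ : chart (⊤ : Subring K) x)

variable [CharZero K]

set_option linter.unusedVariables false in
theorem rootData_of_places {x : F} (hx : Transcendental K x) [FiniteDimensional K⟮x⟯ F]
    {m : ℕ} (hm : m ≠ 0) {h : F} (hh : h ≠ 0)
    (hdiv : ∀ v : Place K F, 0 ≤ v.ord x → (m : ℤ) ∣ v.ord h) :
    RootData (chart (⊤ : Subring K) x) 1 m h := by
  have := isDedekindDomain_chart_top (K := K) hx
  have := isFractionRing_chart_top (K := K) x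
  exact rootData_of_places_aux hh hdiv

end PLACES

end Fermat.Agent.S18
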